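import Mathlib
import Fermat.Agent.LT.T7.H751.FactDownQSpec

/-!
# Row LT, tower T7, asset leaf T7.L2Q.1.H1.5.7.2 `H751.ReContQC751` (helper325)

OFF-MAIN.  `reContQC325 : H751.ReContQC751`: the real component
`MQ298.reGLQ298 : GL₂(𝔸_ℚ) → GL₂(ℝ)` is continuous.

Proof: `MQ298.reHomQ298` is a continuous ring homomorphism (first projection, evaluation at the
real place, `extensionEmbeddingOfIsReal` is an isometry); `M ↦ M.map f` is continuous on
matrices; `Units.map` of a continuous monoid homomorphism is continuous.
-/

set_option autoImplicit false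

open AutomorphicForm IsDedekindDomain NumberField

noncomputable section

namespace Fermat.Agent.LT.T7.H325

open Fermat.Agent.LT.H556 Fermat.Agent.LT.H556.A0 Fermat.Agent.LT.T7

/-- The real component `𝔸_ℚ → ℝ` is continuous. -/
theorem continuous_reHomQ325 : Continuous (MQ298.reHomQ298 : Adl ℚ → ℝ) := by
  show Continuous fun x : Adl ℚ =>
    InfinitePlace.Completion.extensionEmbeddingOfIsReal Rat.isReal_infinitePlace
      (x.1 Rat.infinitePlace)
  exact (InfinitePlace.Completion.isometry_extensionEmbeddingOfIsReal
    Rat.isReal_infinitePlace).continuous.comp ((continuous_apply _).comp continuous_fst)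

/-- **ASSET LEAF FDQ.2 = RE-CONT**, verbatim. -/
theorem reContQC325 : H751.ReContQC751 := by
  show Continuous (MQ298.reGLQ298 : G ℚ → GL (Fin 2) ℝ)
  have h : Continuous (RingHom.mapMatrix (m := Fin 2) MQ298.reHomQ298) :=
    Continuous.matrix_map continuous_id continuous_reHomQ325
  exact Continuous.units_map (RingHom.mapMatrix (m := Fin 2) MQ298.reHomQ298).toMonoidHom h

/-- The statement of the leaf, verbatim. -/
example : Fermat.Agent.LT.T7.H751.ReContQC751 := reContQC325

end Fermat.Agent.LT.T7.H325

end
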